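/-
T1B (S44), brick CMP / (R2) `TargetHyp` (helper76): the GENERIC GAUSS VERSION.

Setting (T1A/RED vocabulary): `Kt` a field, `O₀ : ValuationSubring Kt` with uniformiser `π`
(`IsUnif O₀ π`), `E ⊂ Frac O₀((q)) ⊂ Kt((q))` a function field with `q`-expansion, and a smooth
two-chart model `M : TwoChartModel ↥O₀ Kt ↥E π t B0 B1 (gaussVS hπ E hE)` whose valuation ring is the
GAUSS valuation ring (this is the shape of every concrete model of the project:
`O₀ = AK A K`, `E = FK N K`).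

For every subalgebra `B ⊂ gaussVS` the reduced `q`-expansion `redExp : ↥B →+* κ((q))`
(`κ = Res O₀`) is `gaussVSRed` restricted to `B`; it maps the constants `w` to `C w̄`
(`redExp_algebraMap`), and for a `π`-saturated `B` its kernel is `π B` (`redExp_ker`: the
`q`-expansion principle).  Feeding this to helper26's `Cmp26.prime_algebraMap_tensor_residue` gives:

* `prime_tensor_of_sat` : `ϖ` is a prime element of `O ⊗[↥O₀] ↥B` for every local flat
  `↥O₀`-algebra `O` (local homomorphism) with maximal ideal `(ϖ)`, `ϖ ≠ 0`;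
* `targetHyp_of_model`  : **`Cmp15.TargetHyp D' O ϖ`** for EVERY Čech datum `D'` on the rings
  `↥B0, ↥B1, ↥(B0 ⊔ B1)` with injective restriction maps, `O` a DVR with uniformiser `ϖ`,
  `↥O₀ → O` injective and `π` not a unit of `O`;
* `targetHyp_cechData`, `targetHyp_cechDataOf` : the same for the Čech data
  `ModelCoh30.cechData M hKF hκ` / `cechDataOf M hKF b hspan hind` of the model.
-/
import Mathlib
import Fermat.Agent.T1B.Cmp15.Core
import Fermat.Agent.T1B.Cmp26.TargetAbs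
import Fermat.Agent.T1.ModelCoh30.Cech
import Fermat.Agent.T1.ModelCoh30.GaussRes

set_option autoImplicit false
set_option linter.unusedSectionVars false
set_option linter.style.haveILetI false

open TensorProduct

noncomputable section

namespace Fermat.Agent.T1B.TargetHyp76

open Fermat.Agent.RED.CORE.CoreIface24 Fermat.Agent.RED.PUR.GaussGen8
open Fermat.Agent.T1.ModelCoh30 Fermat.Agent.T1.CechFormal70

universe u

variable {Kt : Type u} [Field Kt] {O₀ : ValuationSubring Kt}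
  {E : IntermediateField Kt (LaurentSeries Kt)} {π : ↥O₀}

/-! ### The reduced `q`-expansion on a subalgebra of the Gauss valuation ring -/

section RedExp

variable (hπ : IsUnif O₀ π) (hE : E ≤ fracField O₀)

/-- The reduced `q`-expansion `B → κ((q))` of a subalgebra `B` of the Gauss valuation ring. -/
def redExp (B : Subalgebra ↥O₀ ↥E) (hB : ∀ x ∈ B, x ∈ gaussVS hπ E hE) :
    ↥B →+* LaurentSeries (Res O₀) :=
  (gaussVSRed hπ E hE).comp
    ((B.val : ↥B →+* ↥E).codRestrict (gaussVS hπ E hE) fun x => hB x x.2)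

theorem redExp_apply (B : Subalgebra ↥O₀ ↥E) (hB : ∀ x ∈ B, x ∈ gaussVS hπ E hE) (x : ↥B) :
    redExp hπ hE B hB x =
      gaussRed O₀ ⟨((x : ↥E) : LaurentSeries Kt),
        (mem_gaussVS_iff hπ E hE (x : ↥E)).mp (hB x x.2)⟩ := rfl

/-- On the constants the reduced expansion is the residue map. -/
theorem redExp_algebraMap (B : Subalgebra ↥O₀ ↥E) (hB : ∀ x ∈ B, x ∈ gaussVS hπ E hE)
    (w : ↥O₀) :
    redExp hπ hE B hB (algebraMap ↥O₀ ↥B w) = HahnSeries.C (IsLocalRing.residue ↥O₀ w) := by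
  rw [redExp_apply]
  have hcoe : (((algebraMap ↥O₀ ↥B w : ↥B) : ↥E) : LaurentSeries Kt) =
      HahnSeries.C ((w : O₀) : Kt) :=
    Fermat.Agent.RED.NumInst4.coe_algebraMap_OE O₀ E w
  have : (⟨(((algebraMap ↥O₀ ↥B w : ↥B) : ↥E) : LaurentSeries Kt),
      (mem_gaussVS_iff hπ E hE ((algebraMap ↥O₀ ↥B w : ↥B) : ↥E)).mp (hB _ (algebraMap ↥O₀ ↥B w).2)⟩ :
        gaussRing O₀) = constG O₀ w :=
    Subtype.ext hcoe
  rw [this, gaussRed_constG]

/-- **The `q`-expansion principle** for a `π`-saturated subalgebra of the Gauss valuation ring: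
the kernel of the reduced expansion is `π B`. -/
theorem redExp_ker (B : Subalgebra ↥O₀ ↥E) (hB : ∀ x ∈ B, x ∈ gaussVS hπ E hE)
    (hsat : ∀ b ∈ B, ∀ c ∈ gaussVS hπ E hE, b = algebraMap ↥O₀ ↥E π * c → c ∈ B)
    (b : ↥B) (hb : redExp hπ hE B hB b = 0) :
    ∃ b' : ↥B, b = algebraMap ↥O₀ ↥B π * b' := by
  rw [redExp_apply, gaussRed_eq_zero_iff hπ] at hb
  obtain ⟨g, hg⟩ := hb
  have hg' : (((b : ↥B) : ↥E) : LaurentSeries Kt) = piK π * (g : LaurentSeries Kt) :=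
    congrArg (fun f : gaussRing O₀ => (f : LaurentSeries Kt)) hg
  have hcoe : ((algebraMap ↥O₀ ↥E π : ↥E) : LaurentSeries Kt) = HahnSeries.C ((π : O₀) : Kt) :=
    Fermat.Agent.RED.NumInst4.coe_algebraMap_OE O₀ E π
  have hπE : (algebraMap ↥O₀ ↥E π : ↥E) ≠ 0 := by
    intro h
    have h1 : ((algebraMap ↥O₀ ↥E π : ↥E) : LaurentSeries Kt) = ((0 : ↥E) : LaurentSeries Kt) :=
      congrArg (fun z : ↥E => (z : LaurentSeries Kt)) h
    rw [hcoe] at h1
    exact piK_ne_zero hπ h1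
  have hc : ((b : ↥B) : ↥E) * (algebraMap ↥O₀ ↥E π)⁻¹ ∈ gaussVS hπ E hE := by
    rw [mem_gaussVS_iff]
    have : ((((b : ↥B) : ↥E) * (algebraMap ↥O₀ ↥E π)⁻¹ : ↥E) : LaurentSeries Kt) = g := by
      push_cast
      rw [hcoe, hg', mul_comm (piK π), mul_assoc, mul_inv_cancel₀ (piK_ne_zero hπ), mul_one]
    rw [this]
    exact g.2
  have hbc : ((b : ↥B) : ↥E) =
      algebraMap ↥O₀ ↥E π * (((b : ↥B) : ↥E) * (algebraMap ↥O₀ ↥E π)⁻¹) := by
    rw [mul_comm ((b : ↥B) : ↥E), ← mul_assoc, mul_inv_cancel₀ hπE, one_mul]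
  refine ⟨⟨_, hsat b b.2 _ hc hbc⟩, Subtype.ext ?_⟩
  exact hbc

end RedExp

/-! ### `ϖ` is prime in `O ⊗ B` -/

section Prime

variable (hπ : IsUnif O₀ π) (hE : E ≤ fracField O₀)

/-- `ϖ` is a prime element of `O ⊗[↥O₀] ↥B` for a `π`-saturated subalgebra `B` of the Gauss
valuation ring and a flat local `↥O₀`-algebra `O` with maximal ideal `(ϖ)`. -/
theorem prime_tensor_of_sat (B : Subalgebra ↥O₀ ↥E) (hB : ∀ x ∈ B, x ∈ gaussVS hπ E hE)
    (hsat : ∀ b ∈ B, ∀ c ∈ gaussVS hπ E hE, b = algebraMap ↥O₀ ↥E π * c → c ∈ B)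
    (O : Type*) [CommRing O] [IsLocalRing O] [Algebra ↥O₀ O]
    [IsLocalHom (algebraMap ↥O₀ O)] [Module.Flat ↥O₀ O]
    (ϖ : O) (hϖ0 : ϖ ≠ 0) (hϖ : IsLocalRing.maximalIdeal O = Ideal.span {ϖ}) :
    Prime (algebraMap O (O ⊗[↥O₀] ↥B) ϖ) := by
  have hinjB : Function.Injective (algebraMap ↥O₀ ↥B) := by
    intro x y hxy
    have h1 : (((algebraMap ↥O₀ ↥B x : ↥B) : ↥E) : LaurentSeries Kt) =
        (((algebraMap ↥O₀ ↥B y : ↥B) : ↥E) : LaurentSeries Kt) :=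
      congrArg (fun z : ↥B => (((z : ↥B) : ↥E) : LaurentSeries Kt)) hxy
    have hx : (((algebraMap ↥O₀ ↥B x : ↥B) : ↥E) : LaurentSeries Kt) =
        HahnSeries.C ((x : O₀) : Kt) := Fermat.Agent.RED.NumInst4.coe_algebraMap_OE O₀ E x
    have hy : (((algebraMap ↥O₀ ↥B y : ↥B) : ↥E) : LaurentSeries Kt) =
        HahnSeries.C ((y : O₀) : Kt) := Fermat.Agent.RED.NumInst4.coe_algebraMap_OE O₀ E y
    rw [hx, hy] at h1
    exact Subtype.ext (HahnSeries.C_injective h1)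
  have hπm : π ∈ IsLocalRing.maximalIdeal ↥O₀ := by
    rw [← IsLocalRing.residue_eq_zero_iff]
    exact res0_unif hπ
  exact Fermat.Agent.T1B.Cmp26.prime_algebraMap_tensor_residue hinjB (redExp hπ hE B hB)
    (redExp_algebraMap hπ hE B hB) π hπm (redExp_ker hπ hE B hB hsat) ϖ hϖ0 hϖ

end Prime

/-! ### Base-ring plumbing: local homomorphism and flatness -/

section Base

variable (hπ : IsUnif O₀ π)

include hπ in
/-- `↥O₀ → O` is a local homomorphism as soon as `π` does not become a unit. -/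
theorem isLocalHom_of_not_isUnit (O : Type*) [CommRing O] [Algebra ↥O₀ O]
    (hπO : ¬ IsUnit (algebraMap ↥O₀ O π)) : IsLocalHom (algebraMap ↥O₀ O) := by
  refine ⟨fun w hw => ?_⟩
  by_contra hnu
  have hwm : w ∈ IsLocalRing.maximalIdeal ↥O₀ := (IsLocalRing.mem_maximalIdeal w).mpr hnu
  rw [hπ.max_eq, Ideal.mem_span_singleton] at hwm
  obtain ⟨c, rfl⟩ := hwm
  rw [map_mul] at hw
  exact hπO (isUnit_of_mul_isUnit_left hw)

/-- a domain `O` into which `↥O₀` injects is torsion-free. -/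
theorem isTorsionFree_of_injective (O : Type*) [CommRing O] [IsDomain O] [Algebra ↥O₀ O]
    (hinj : Function.Injective (algebraMap ↥O₀ O)) : Module.IsTorsionFree ↥O₀ O := by
  refine ⟨fun r hr x y hxy => ?_⟩
  have hr0 : r ≠ 0 := hr.ne_zero
  have hrO : algebraMap ↥O₀ O r ≠ 0 := fun h => hr0 (hinj (by rw [h, map_zero]))
  simp only [Algebra.smul_def] at hxy
  exact mul_left_cancel₀ hrO hxy

end Base

/-! ### `TargetHyp` for the two-chart model -/

section Model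

attribute [local instance 2000] Fermat.Agent.RED.NumInst4.isScalarTower_OE

variable (hπ : IsUnif O₀ π) (hE : E ≤ fracField O₀) {t : ↥E} {B0 B1 : Subalgebra ↥O₀ ↥E}

/-- a domain `O` into which the DVR `↥O₀` injects is flat. -/
theorem flat_of_injective (M : TwoChartModel ↥O₀ Kt ↥E π t B0 B1 (gaussVS hπ E hE))
    (O : Type*) [CommRing O] [IsDomain O] [Algebra ↥O₀ O]
    (hinj : Function.Injective (algebraMap ↥O₀ O)) : Module.Flat ↥O₀ O := by
  haveI := isDomain M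
  haveI := isPrincipalIdealRing M
  haveI := isTorsionFree_of_injective O hinj
  infer_instance

/-- `ϖ` is prime in `O ⊗ B0`. -/
theorem prime_chart0 (M : TwoChartModel ↥O₀ Kt ↥E π t B0 B1 (gaussVS hπ E hE))
    (O : Type*) [CommRing O] [IsLocalRing O] [Algebra ↥O₀ O]
    [IsLocalHom (algebraMap ↥O₀ O)] [Module.Flat ↥O₀ O]
    (ϖ : O) (hϖ0 : ϖ ≠ 0) (hϖ : IsLocalRing.maximalIdeal O = Ideal.span {ϖ}) :
    Prime (algebraMap O (O ⊗[↥O₀] ↥B0) ϖ) :=
  prime_tensor_of_sat hπ hE B0 M.le_Ov0 M.sat0 O ϖ hϖ0 hϖ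

/-- `ϖ` is prime in `O ⊗ B1`. -/
theorem prime_chart1 (M : TwoChartModel ↥O₀ Kt ↥E π t B0 B1 (gaussVS hπ E hE))
    (O : Type*) [CommRing O] [IsLocalRing O] [Algebra ↥O₀ O]
    [IsLocalHom (algebraMap ↥O₀ O)] [Module.Flat ↥O₀ O]
    (ϖ : O) (hϖ0 : ϖ ≠ 0) (hϖ : IsLocalRing.maximalIdeal O = Ideal.span {ϖ}) :
    Prime (algebraMap O (O ⊗[↥O₀] ↥B1) ϖ) :=
  prime_tensor_of_sat hπ hE B1 M.le_Ov1 M.sat1 O ϖ hϖ0 hϖ

/-- `ϖ` is prime in `O ⊗ B01`, `B01 = B0 ⊔ B1`. -/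
theorem prime_chart01 (M : TwoChartModel ↥O₀ Kt ↥E π t B0 B1 (gaussVS hπ E hE))
    (O : Type*) [CommRing O] [IsLocalRing O] [Algebra ↥O₀ O]
    [IsLocalHom (algebraMap ↥O₀ O)] [Module.Flat ↥O₀ O]
    (ϖ : O) (hϖ0 : ϖ ≠ 0) (hϖ : IsLocalRing.maximalIdeal O = Ideal.span {ϖ}) :
    Prime (algebraMap O (O ⊗[↥O₀] ↥(B0 ⊔ B1)) ϖ) :=
  prime_tensor_of_sat hπ hE (B0 ⊔ B1) (sup_le_Ov M) (sat01 M) O ϖ hϖ0 hϖ

/-- **`TargetHyp`, local-ring form**: `O` any flat local `↥O₀`-algebra (local homomorphism) whose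
maximal ideal is `(ϖ)`, `ϖ ≠ 0`; `D'` any Čech datum on the charts of the model with injective
restriction maps. -/
theorem targetHyp_of_local (M : TwoChartModel ↥O₀ Kt ↥E π t B0 B1 (gaussVS hπ E hE))
    {g' : ℕ} (D' : CechData ↥O₀ ↥B0 ↥B1 ↥(B0 ⊔ B1) g')
    (hρ0 : Function.Injective D'.ρ0) (hρ1 : Function.Injective D'.ρ1)
    (O : Type u) [CommRing O] [IsLocalRing O] [Algebra ↥O₀ O]
    [IsLocalHom (algebraMap ↥O₀ O)] [Module.Flat ↥O₀ O]
    (ϖ : O) (hϖ0 : ϖ ≠ 0) (hϖ : IsLocalRing.maximalIdeal O = Ideal.span {ϖ}) :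
    Fermat.Agent.T1B.Cmp15.TargetHyp D' O ϖ where
  prime0 := prime_chart0 hπ hE M O ϖ hϖ0 hϖ
  prime1 := prime_chart1 hπ hE M O ϖ hϖ0 hϖ
  prime01 := prime_chart01 hπ hE M O ϖ hϖ0 hϖ
  inj0 := Fermat.Agent.T1B.Cmp26.map_id_injective O D'.ρ0 hρ0
  inj1 := Fermat.Agent.T1B.Cmp26.map_id_injective O D'.ρ1 hρ1

/-- **`TargetHyp`, DVR form** (the shape consumed by `Cmp15.cmp_core`): `O` a DVR with uniformiser
`ϖ`, `↥O₀ → O` injective, `π` not a unit of `O`. -/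
theorem targetHyp_of_model (M : TwoChartModel ↥O₀ Kt ↥E π t B0 B1 (gaussVS hπ E hE))
    {g' : ℕ} (D' : CechData ↥O₀ ↥B0 ↥B1 ↥(B0 ⊔ B1) g')
    (hρ0 : Function.Injective D'.ρ0) (hρ1 : Function.Injective D'.ρ1)
    (O : Type u) [CommRing O] [IsDomain O] [IsDiscreteValuationRing O] [Algebra ↥O₀ O]
    (hinj : Function.Injective (algebraMap ↥O₀ O)) (hπO : ¬ IsUnit (algebraMap ↥O₀ O π))
    {ϖ : O} (hϖ : Irreducible ϖ) :
    Fermat.Agent.T1B.Cmp15.TargetHyp D' O ϖ := by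
  haveI := isLocalHom_of_not_isUnit hπ O hπO
  haveI := flat_of_injective hπ hE M O hinj
  exact targetHyp_of_local hπ hE M D' hρ0 hρ1 O ϖ hϖ.ne_zero hϖ.maximalIdeal_eq

/-- `TargetHyp` for the Čech datum `cechData M hKF hκ` of the model. -/
theorem targetHyp_cechData (M : TwoChartModel ↥O₀ Kt ↥E π t B0 B1 (gaussVS hπ E hE))
    (hKF : ∀ y : ↥E, IsAlgebraic Kt y → ∃ c : Kt, algebraMap Kt ↥E c = y)
    (hκ : ResAlgClosed π (gaussVS hπ E hE))
    (O : Type u) [CommRing O] [IsDomain O] [IsDiscreteValuationRing O] [Algebra ↥O₀ O]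
    (hinj : Function.Injective (algebraMap ↥O₀ O)) (hπO : ¬ IsUnit (algebraMap ↥O₀ O π))
    {ϖ : O} (hϖ : Irreducible ϖ) :
    Fermat.Agent.T1B.Cmp15.TargetHyp (cechData M hKF hκ) O ϖ :=
  targetHyp_of_model hπ hE M (cechData M hKF hκ)
    (Subalgebra.inclusion_injective le_sup_left) (Subalgebra.inclusion_injective le_sup_right)
    O hinj hπO hϖ

/-- `TargetHyp` for the Čech datum `cechDataOf M hKF b hspan hind` of the model (any basis of
`H¹`, e.g. a Galois-invariant one). -/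
theorem targetHyp_cechDataOf (M : TwoChartModel ↥O₀ Kt ↥E π t B0 B1 (gaussVS hπ E hE))
    (hKF : ∀ y : ↥E, IsAlgebraic Kt y → ∃ c : Kt, algebraMap Kt ↥E c = y) {g : ℕ}
    (b : Fin g → ↥(B0 ⊔ B1))
    (hspan : ∀ y : ↥(B0 ⊔ B1), ∃ (c : Fin g → ↥O₀) (x0 : ↥B0) (x1 : ↥B1),
      y = ∑ i, c i • b i + ρ0 B0 B1 x0 + ρ1 B0 B1 x1)
    (hind : ∀ (c : Fin g → ↥O₀) (x0 : ↥B0) (x1 : ↥B1),
      ∑ i, c i • b i + ρ0 B0 B1 x0 + ρ1 B0 B1 x1 = 0 → ∀ i, c i = 0)
    (O : Type u) [CommRing O] [IsDomain O] [IsDiscreteValuationRing O] [Algebra ↥O₀ O]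
    (hinj : Function.Injective (algebraMap ↥O₀ O)) (hπO : ¬ IsUnit (algebraMap ↥O₀ O π))
    {ϖ : O} (hϖ : Irreducible ϖ) :
    Fermat.Agent.T1B.Cmp15.TargetHyp (cechDataOf M hKF b hspan hind) O ϖ :=
  targetHyp_of_model hπ hE M (cechDataOf M hKF b hspan hind)
    (Subalgebra.inclusion_injective le_sup_left) (Subalgebra.inclusion_injective le_sup_right)
    O hinj hπO hϖ

end Model

end Fermat.Agent.T1B.TargetHyp76
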