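/-
T1B (S44), brick CMP / (R2) `TargetHyp` (helper76): the LOCAL INSTANCE.

`W = Wb p K = A ∩ K` (`A = padicPlace p`, `K` a number field), `E` a finite level
(`IsLevel p K E`, `[FiniteDimensional ℚ_[p] E]`), `O = O_E = intSubring p E` with the `W`-algebra
structure `algWO h` of helper66's `Local66.LocalBase`.  For EVERY smooth two-chart model
`M : TwoChartModel W K FE π t B0 B1 (gaussVS hπ FE hFE)` over `W` with a Gauss valuation ring and
every Čech datum `D'` on its charts with injective restriction maps: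
`Cmp15.TargetHyp D' O_E ϖ` for every uniformiser `ϖ` of `O_E`  (`targetHyp_intSubring`).

Ingredients: `W → O_E` is injective (`toO_injective`), a non-unit of `W` has norm `< 1`
(`norm_iotaW_lt_one`), hence does not become a unit of `O_E` (`not_isUnit_toO`).
-/
import Mathlib
import Fermat.Agent.T1B.TargetHyp76.Gauss
import Fermat.Agent.T1B.Local66.LocalBase

set_option autoImplicit false
set_option linter.unusedSectionVars false
set_option linter.style.haveILetI false

open TensorProduct

noncomputable section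

namespace Fermat.Agent.T1B.TargetHyp76

open Fermat.Agent.RED.CORE.CoreIface24 Fermat.Agent.RED.PUR.GaussGen8
open Fermat.Agent.T1.ModelCoh30 Fermat.Agent.T1.CechFormal70
open Fermat.Agent.TW.B5.Iface Fermat.Agent.RED.Interface4 Fermat.Agent.T1.HubInst98
open Fermat.Agent.T1.LocModel46 Fermat.Agent.T1.IntSub47
open Fermat.Agent.T1B.Local66.LocalBase

variable {p : ℕ} [Fact p.Prime] {K : IntermediateField ℚ Qbar}
  {E : IntermediateField ℚ_[p] (Kbar p)}

/-- `W → O_E` is injective. -/
theorem toO_injective (h : IsLevel p K E) : Function.Injective (toO h) := by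
  intro x y hxy
  apply iotaW_injective p K
  have := congrArg (fun z : ↥(intSubring p E) => (z : Kbar p)) hxy
  simpa using this

/-- A non-unit of `W = A ∩ K` has `p`-adic norm `< 1`. -/
theorem norm_iotaW_lt_one (w : Wb p K) (hw : ¬ IsUnit w) : ‖iotaW p K w‖ < 1 := by
  by_contra hlt
  have hle : ‖iotaW p K w‖ ≤ 1 := norm_iotaW_le_one p K w
  have heq : ‖iotaW p K w‖ = 1 := le_antisymm hle (not_lt.mp hlt)
  apply hw
  have hw0 : (w : ↥K) ≠ 0 := by
    intro h0
    have : iotaW p K w = 0 := by
      rw [iotaW_apply, h0]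
      simp
    rw [this, norm_zero] at heq
    exact zero_ne_one heq
  have hinv : ((w : ↥K))⁻¹ ∈ AK (padicPlace p) K := by
    rw [← norm_iota_jL_le_one_iff]
    have h1 : padicEmbedding p (jL K ((w : ↥K))⁻¹) = (iotaW p K w)⁻¹ := by
      rw [iotaW_apply, map_inv₀, map_inv₀]
      rfl
    rw [h1, norm_inv, heq, inv_one]
  exact isUnit_iff_exists_inv.mpr ⟨⟨_, hinv⟩, Subtype.ext (mul_inv_cancel₀ hw0)⟩

/-- A non-unit of `W` does not become a unit of `O_E`. -/
theorem not_isUnit_toO (h : IsLevel p K E) (w : Wb p K) (hw : ¬ IsUnit w) :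
    ¬ IsUnit (toO h w) := by
  intro hu
  obtain ⟨v, hv⟩ := isUnit_iff_exists_inv.mp hu
  have h1 : iotaW p K w * (v : Kbar p) = 1 := by
    have := congrArg (fun z : ↥(intSubring p E) => (z : Kbar p)) hv
    simpa using this
  have h2 : ‖iotaW p K w‖ * ‖(v : Kbar p)‖ = 1 := by
    rw [← norm_mul, h1, norm_one]
  have h3 : ‖(v : Kbar p)‖ ≤ 1 := v.2.2
  have h4 : ‖iotaW p K w‖ < 1 := norm_iotaW_lt_one w hw
  have h5 : ‖iotaW p K w‖ * ‖(v : Kbar p)‖ < 1 := by
    calc ‖iotaW p K w‖ * ‖(v : Kbar p)‖ ≤ ‖iotaW p K w‖ * 1 :=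
          mul_le_mul_of_nonneg_left h3 (norm_nonneg _)
      _ = ‖iotaW p K w‖ := mul_one _
      _ < 1 := h4
  exact absurd h2 (ne_of_lt h5)

/-! ### Shortcut instances (typeclass search at `↥(AK A K)`, `↥K` is very slow) -/

section Shortcut

variable {Kt : Type*} [Field Kt] (O₀ : ValuationSubring Kt)
  (FE : IntermediateField Kt (LaurentSeries Kt))

/-- the `O₀`-algebra structure of a subfield of `Kt((q))`, found in the generic context. -/
abbrev algOFE : Algebra ↥O₀ ↥FE := inferInstance

/-- the `Kt`-algebra structure of a subfield of `Kt((q))`. -/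
abbrev algKFE : Algebra Kt ↥FE := inferInstance

/-- the `O₀`-algebra structure of `Kt`. -/
abbrev algOKt : Algebra ↥O₀ Kt := inferInstance

end Shortcut

section Model

variable (FE : IntermediateField ↥K (LaurentSeries ↥K))

local instance (priority := 10000) fastAlgOFE : Algebra ↥(AK (padicPlace p) K) ↥FE :=
  algOFE (AK (padicPlace p) K) FE

local instance (priority := 10000) fastModOFE : Module ↥(AK (padicPlace p) K) ↥FE :=
  (algOFE (AK (padicPlace p) K) FE).toModule

local instance (priority := 10000) fastSMulOFE : SMul ↥(AK (padicPlace p) K) ↥FE :=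
  (algOFE (AK (padicPlace p) K) FE).toSMul

local instance (priority := 10000) fastAlgKFE : Algebra ↥K ↥FE := algKFE FE

local instance (priority := 10000) fastAlgOK : Algebra ↥(AK (padicPlace p) K) ↥K :=
  algOKt (AK (padicPlace p) K)

local instance (priority := 10000) fastTower : IsScalarTower ↥(AK (padicPlace p) K) ↥K ↥FE :=
  Fermat.Agent.RED.NumInst4.isScalarTower_OE (AK (padicPlace p) K) FE

variable {FE} {π : ↥(AK (padicPlace p) K)}
  (hπ : IsUnif (AK (padicPlace p) K) π) (hFE : FE ≤ fracField (AK (padicPlace p) K))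
  {t : ↥FE} {B0 B1 : Subalgebra ↥(AK (padicPlace p) K) ↥FE}

/-- **`TargetHyp` over `O_E`** for every two-chart model over `W = A ∩ K` with a Gauss valuation
ring, and every Čech datum on its charts with injective restriction maps. -/
theorem targetHyp_intSubring (h : IsLevel p K E) [FiniteDimensional ℚ_[p] E]
    (M : TwoChartModel ↥(AK (padicPlace p) K) ↥K ↥FE π t B0 B1 (gaussVS hπ FE hFE))
    {g' : ℕ} (D' : CechData ↥(AK (padicPlace p) K) ↥B0 ↥B1 ↥(B0 ⊔ B1) g')
    (hρ0 : Function.Injective D'.ρ0) (hρ1 : Function.Injective D'.ρ1)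
    {ϖ : ↥(intSubring p E)} (hϖ : Irreducible ϖ) :
    letI := algWO h
    Fermat.Agent.T1B.Cmp15.TargetHyp D' ↥(intSubring p E) ϖ := by
  letI := algWO h
  haveI := isDVR_O E
  exact targetHyp_of_model hπ hFE M D' hρ0 hρ1 ↥(intSubring p E) (toO_injective h)
    (not_isUnit_toO h π (pi_not_isUnit M)) hϖ

end Model

end Fermat.Agent.T1B.TargetHyp76
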